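import Mathlib
import Fermat.Agent.LT.T7.H87.BaseAQSpec

/-!
# Row LT, tower T7, leaf T7.L2Q.1.H2a.A.0.S `BQ87.IwSuppC87 K` (helper283, registry row 3091)

OFF-MAIN, ADDITIVE (new names only, suffix `283`).  Vocabulary: `T7/H87/BaseAQSpec.lean`
(helper87, sha256 6471b15c) and its imports, byte-identical copies.

    iwSuppC283 (K) : BQ87.IwSuppC87 K                         (VERBATIM, UNCONDITIONAL)

ONE field.  A function of compact support which is supported at `P ∪ S_∞` (`T3.M.IsSuppAtM`) is
Iwahori-supported along places `o j ∣ 𝔫` outside `P`, in the compact set `C = tsupport f`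
(`T5.H32.isIwSupported_of_support32`): at `o j` the entries of `y - 1`, `y⁻¹ - 1` lie in the
closure of `𝔫`, which is contained in the maximal ideal of the completion.
-/

set_option autoImplicit false

open IsDedekindDomain NumberField

noncomputable section

namespace Fermat.Agent.LT.T7.H283

open Fermat.Agent.LT.H556.A0 Fermat.Agent.LT.T5

variable {K : Type} [Field K] [NumberField K]

/-- The valuation of the completion on the image of `K`. -/
theorem valuedAlg_iw283 (v : HeightOneSpectrum (𝓞 K)) (q : K) :
    Valued.v (algebraMap K (v.adicCompletion K) q) = v.valuation K q :=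
  HeightOneSpectrum.valuedAdicCompletion_eq_valuation' v q

/-- The open unit ball of the completion is closed. -/
theorem isClosed_lt_one_iw283 (v : HeightOneSpectrum (𝓞 K)) :
    IsClosed {x : v.adicCompletion K | Valued.v x < 1} := by
  have h := Valued.isClosed_ball (v.adicCompletion K) (1 : MonoidWithZeroHom.ValueGroup₀ _)
  have e : {x : v.adicCompletion K | Valued.v x < 1} = {x | Valued.v.restrict x < 1} := by
    ext x
    simp [Valuation.restrict_lt_iff_lt_embedding]
  rw [e]
  exact h

/-- The closure of an ideal divisible by `u` lies in the maximal ideal at `u`. -/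
theorem idealClosure_lt_one_iw283 {𝔫 : Ideal (𝓞 K)} {u : HeightOneSpectrum (𝓞 K)}
    (hu : u.asIdeal ∣ 𝔫) {x : u.adicCompletion K} (hx : x ∈ idealClosure 𝔫 u) :
    Valued.v x < 1 := by
  refine closure_minimal ?_ (isClosed_lt_one_iw283 u) hx
  rintro _ ⟨n, hn, rfl⟩
  show Valued.v (algebraMap K (u.adicCompletion K) (algebraMap (𝓞 K) K n)) < 1
  rw [valuedAlg_iw283]
  exact (HeightOneSpectrum.valuation_lt_one_iff_mem u n).2 (Ideal.dvd_iff_le.1 hu hn)

/-- An element which is congruent to `1` modulo `𝔫` at `u ∣ 𝔫` (with its inverse) lies in the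
Iwahori subgroup at `u`. -/
theorem inIwahori_of_outside_iw283 {𝔫 : Ideal (𝓞 K)} {u : HeightOneSpectrum (𝓞 K)}
    (hu : u.asIdeal ∣ 𝔫) {y : G K}
    (h : ∀ i j : Fin 2, (finComp u y - 1) i j ∈ idealClosure 𝔫 u ∧
      (finComp u y⁻¹ - 1) i j ∈ idealClosure 𝔫 u) :
    InIwahori u y := by
  have key : ∀ (M : Matrix (Fin 2) (Fin 2) (u.adicCompletion K)),
      (∀ i j, (M - 1) i j ∈ idealClosure 𝔫 u) → ∀ i j, M i j ∈ u.adicCompletionIntegers K := by
    intro M hM i j
    have e : M i j = (M - 1) i j + (1 : Matrix (Fin 2) (Fin 2) (u.adicCompletion K)) i j := by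
      rw [Matrix.sub_apply, sub_add_cancel]
    rw [e]
    refine add_mem ?_ ?_
    · rw [HeightOneSpectrum.mem_adicCompletionIntegers]
      exact (idealClosure_lt_one_iw283 hu (hM i j)).le
    · by_cases hij : i = j
      · subst hij
        rw [Matrix.one_apply_eq]
        exact one_mem _
      · rw [Matrix.one_apply_ne hij]
        exact zero_mem _
  refine ⟨key _ fun i j => (h i j).1, key _ fun i j => (h i j).2, ?_⟩
  have h1 := idealClosure_lt_one_iw283 hu (h 1 0).1
  rwa [Matrix.sub_apply, Matrix.one_apply_ne (by decide), sub_zero] at h1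

/-- **LEAF A.0.S = IW-SUPP (one field)**, VERBATIM, unconditional. -/
theorem iwSuppC283 (K : Type) [Field K] [NumberField K] : BQ87.IwSuppC87 K := by
  intro 𝔫 P l o hdiv hout f hf hsupp
  refine ⟨tsupport f, hf, T5.H32.isIwSupported_of_support32 ?_⟩
  intro y hy j hj
  exact inIwahori_of_outside_iw283 (hdiv j hj)
    (fun i j' => hsupp y hy (o j) (hout j hj) i j')

end Fermat.Agent.LT.T7.H283

end
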